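import Mathlib
import Fermat.Agent.H7.Frob.Interfaces
import Fermat.Agent.H53.FrobeniusExists

/-!
# P-FROB, row FD-Q: from number fields to the prelude language

`Fermat.Agent.H9.frobGenStatement_of_numberField :
  Fermat.Agent.H7.Frob.FrobGenNumberFieldStatement → Fermat.Agent.H7.Frob.FrobGenStatement`.

Given a finite extension `F` of `ℚ` inside `ℚ̄`, we pass to its normal closure `L₀`, apply the
number-field statement to the restriction of `g`, extend the prime `𝔓` of `𝓞 L₀` to a valuation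
subring `A` of `ℚ̄`, and pick a Frobenius element at `A`; its restriction to `L₀` is a Frobenius
at `𝔓`.
-/

set_option autoImplicit false

namespace Fermat.Agent.H9

open NumberField

/-- From `IsFrobeniusAt`: the congruence `σ a ≡ a ^ q` modulo the non-units, on all of `A`. -/
theorem frobGlue_sub_mem_nonunits {K L : Type*} [Field K] [Field L] [Algebra K L]
    {A : ValuationSubring L} {σ : L ≃ₐ[K] L} {q : ℕ} (h : A.IsFrobeniusAt σ q) {a : L}
    (ha : a ∈ A) : σ a - a ^ q ∈ A.nonunits := by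
  obtain ⟨hσ, hF⟩ := h
  have h1 := hF (IsLocalRing.residue A ⟨a, ha⟩)
  rw [← IsLocalRing.ResidueField.residue_smul, ← map_pow, ← sub_eq_zero, ← map_sub,
    IsLocalRing.residue_eq_zero_iff, ← ValuationSubring.coe_mem_nonunits_iff] at h1
  exact h1

/-- The non-units of a valuation subring are closed under addition. -/
theorem frobGlue_add_mem_nonunits {L : Type*} [Field L] (A : ValuationSubring L) {a b : L}
    (ha : a ∈ A.nonunits) (hb : b ∈ A.nonunits) : a + b ∈ A.nonunits := by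
  rw [ValuationSubring.mem_nonunits_iff] at ha hb ⊢
  exact Valuation.map_add_lt _ ha hb

/-- A non-unit times an element of `A` is a non-unit. -/
theorem frobGlue_mul_mem_nonunits {L : Type*} [Field L] (A : ValuationSubring L) {a b : L}
    (ha : a ∈ A.nonunits) (hb : b ∈ A) : a * b ∈ A.nonunits := by
  rw [ValuationSubring.mem_nonunits_iff] at ha ⊢
  rw [map_mul]
  have hb' : A.valuation b ≤ 1 := (A.valuation_le_one_iff _).mpr hb
  calc A.valuation a * A.valuation b ≤ A.valuation a * 1 := by gcongr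
    _ = A.valuation a := mul_one _
    _ < 1 := ha

/-- **Extension of places.** For a prime ideal `𝔓` of the ring of integers of a number field `L`
containing a rational prime, and any field `Ω` containing `L`, there is a valuation subring of
`Ω` whose centre on `𝓞 L` is exactly `𝔓`. -/
theorem frobGlue_exists_valuationSubring (L : Type*) [Field L] [NumberField L]
    (Ω : Type*) [Field Ω] [Algebra L Ω] (𝔓 : Ideal (𝓞 L)) (h𝔓 : 𝔓.IsPrime) (h0 : 𝔓 ≠ ⊥) :
    ∃ A : ValuationSubring Ω, ∀ x : 𝓞 L,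
      algebraMap L Ω (x : L) ∈ A ∧ (algebraMap L Ω (x : L) ∈ A.nonunits ↔ x ∈ 𝔓) := by
  classical
  have hmax : 𝔓.IsMaximal := h𝔓.isMaximal h0
  let f : 𝓞 L →+* Ω := (algebraMap L Ω).comp (algebraMap (𝓞 L) L)
  have hf : Function.Injective f :=
    (algebraMap L Ω).injective.comp RingOfIntegers.coe_injective
  have hfr : Function.Injective f.rangeRestrict := fun a b hab =>
    hf (by simpa using congrArg (Subtype.val) hab)
  let e : 𝓞 L ≃+* f.range := RingEquiv.ofBijective f.rangeRestrict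
    ⟨hfr, f.rangeRestrict_surjective⟩
  have he : ∀ x : 𝓞 L, ((e x : f.range) : Ω) = algebraMap L Ω (x : L) := fun x => rfl
  let I : Ideal f.range := Ideal.comap (e.symm : f.range →+* 𝓞 L) 𝔓
  have hI : I ≠ ⊤ := by
    intro h
    have h1 : (1 : f.range) ∈ I := h ▸ Submodule.mem_top
    rw [Ideal.mem_comap, map_one] at h1
    exact h𝔓.ne_top ((Ideal.eq_top_iff_one _).mpr h1)
  obtain ⟨A, hRA, hIA⟩ := Ideal.image_subset_nonunits_valuationSubring I hI
  have hmemA : ∀ x : 𝓞 L, algebraMap L Ω (x : L) ∈ A := fun x => by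
    rw [← he x]
    exact hRA (e x).2
  have hnon : ∀ x : 𝓞 L, x ∈ 𝔓 → algebraMap L Ω (x : L) ∈ A.nonunits := fun x hx => by
    rw [← he x]
    refine hIA ⟨e x, ?_, rfl⟩
    show e x ∈ I
    rw [Ideal.mem_comap]
    simpa using hx
  refine ⟨A, fun x => ⟨hmemA x, ⟨fun hx => ?_, hnon x⟩⟩⟩
  by_contra hx𝔓
  obtain ⟨y, z, hz, hxyz⟩ := hmax.exists_inv hx𝔓
  have h1 : (1 : Ω) ∈ A.nonunits := by
    have e1 : (1 : Ω) = algebraMap L Ω ((y : L)) * algebraMap L Ω (x : L)
        + algebraMap L Ω (z : L) := by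
      have := congrArg (fun t : 𝓞 L => algebraMap L Ω (t : L)) hxyz
      simp only [map_add, map_mul, map_one] at this
      exact this.symm
    rw [e1, mul_comm]
    exact frobGlue_add_mem_nonunits A (frobGlue_mul_mem_nonunits A hx (hmemA y)) (hnon z hz)
  rw [ValuationSubring.mem_nonunits_iff, map_one] at h1
  exact lt_irrefl _ h1

/-- In a finite group, two elements generating the same cyclic subgroup are natural powers of
each other. -/
theorem frobGlue_exists_pow {G : Type*} [Group G] [Finite G] {a b : G}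
    (h : Subgroup.zpowers a = Subgroup.zpowers b) : ∃ k j : ℕ, a ^ k = b ∧ b ^ j = a := by
  have hb : b ∈ Subgroup.zpowers a := h ▸ Subgroup.mem_zpowers b
  have ha : a ∈ Subgroup.zpowers b := h ▸ Subgroup.mem_zpowers a
  obtain ⟨k, hk⟩ := (mem_powers_iff_mem_zpowers).mpr hb
  obtain ⟨j, hj⟩ := (mem_powers_iff_mem_zpowers).mpr ha
  exact ⟨k, j, hk, hj⟩

/-- **Core of FD-Q**, for an abstract finite Galois extension `L/ℚ` embedded in `ℚ̄`. -/
theorem frobGlue_core (hN : Fermat.Agent.H7.Frob.FrobGenNumberFieldStatement)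
    (L : Type) [Field L] [alg : Algebra ℚ L] [FiniteDimensional ℚ L] [IsGalois ℚ L]
    [Algebra L (AlgebraicClosure ℚ)] [IsScalarTower ℚ L (AlgebraicClosure ℚ)]
    (g : AlgebraicClosure ℚ ≃ₐ[ℚ] AlgebraicClosure ℚ) (T : Finset ℕ) :
    ∃ (ℓ : ℕ) (A : ValuationSubring (AlgebraicClosure ℚ))
      (σ : AlgebraicClosure ℚ ≃ₐ[ℚ] AlgebraicClosure ℚ) (k j : ℕ),
      ℓ.Prime ∧ ℓ ∉ T ∧ A.LiesOverPrime ℓ ∧ A.IsFrobeniusAt σ ℓ ∧
        (∀ x : L, (σ ^ k) (algebraMap L (AlgebraicClosure ℚ) x)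
          = g (algebraMap L (AlgebraicClosure ℚ) x)) ∧
        (∀ x : L, (g ^ j) (algebraMap L (AlgebraicClosure ℚ) x)
          = σ (algebraMap L (AlgebraicClosure ℚ) x)) := by
  have hc : CharZero L := RingHom.charZero (algebraMap L (AlgebraicClosure ℚ))
  obtain rfl : alg = @DivisionRing.toRatAlgebra L _ hc := Subsingleton.elim _ _
  have hNF : NumberField L := { to_charZero := hc, to_finiteDimensional := inferInstance }
  set Ω := AlgebraicClosure ℚ with hΩ
  -- restriction of automorphisms of `ℚ̄` to `L`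
  let res : (Ω ≃ₐ[ℚ] Ω) →* (L ≃ₐ[ℚ] L) := AlgEquiv.restrictNormalHom L
  have hres : ∀ (τ : Ω ≃ₐ[ℚ] Ω) (x : L), algebraMap L Ω (res τ x) = τ (algebraMap L Ω x) :=
    fun τ x => AlgEquiv.restrictNormal_commutes τ L x
  obtain ⟨𝔓, ℓ, h𝔓, hℓ, hℓT, hℓ𝔓, hkey⟩ := hN L (res g) T
  have h0 : 𝔓 ≠ ⊥ := by
    rintro rfl
    have h1 : ((ℓ : ℕ) : 𝓞 L) = 0 := by simpa using hℓ𝔓
    have h2 : (ℓ : ℕ) = 0 := by exact_mod_cast h1
    exact hℓ.ne_zero h2
  obtain ⟨A, hA⟩ := frobGlue_exists_valuationSubring L Ω 𝔓 h𝔓 h0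
  have hAℓ : A.LiesOverPrime ℓ := by
    show ((ℓ : ℕ) : Ω) ∈ A.nonunits
    have := (hA ((ℓ : ℕ) : 𝓞 L)).2.mpr hℓ𝔓
    simpa using this
  obtain ⟨σ, hσ⟩ := Fermat.Agent.H53.exists_isFrobeniusAt_algebraicClosure hℓ A hAℓ
  -- the restriction of `σ` is a Frobenius at `𝔓`
  have hσ𝔓 : ∀ x : 𝓞 L, ∃ y ∈ 𝔓, (res σ) (x : L) = (x : L) ^ ℓ + (y : L) := by
    intro x
    have hint : (res σ) (x : L) - (x : L) ^ ℓ ∈ integralClosure ℤ L := by
      show IsIntegral ℤ ((res σ) (x : L) - (x : L) ^ ℓ)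
      refine IsIntegral.sub ?_ ((RingOfIntegers.isIntegral_coe x).pow ℓ)
      exact (RingOfIntegers.isIntegral_coe x).map
        ((res σ : L ≃ₐ[ℚ] L) : L →ₐ[ℚ] L).toRingHom.toIntAlgHom
    let y : 𝓞 L := ⟨(res σ) (x : L) - (x : L) ^ ℓ, hint⟩
    have hyL : (y : L) = (res σ) (x : L) - (x : L) ^ ℓ := rfl
    refine ⟨y, ?_, ?_⟩
    · rw [← (hA y).2, hyL, map_sub, map_pow, hres]
      exact frobGlue_sub_mem_nonunits hσ (hA x).1
    · rw [hyL]; ring
  obtain ⟨k, j, hk, hj⟩ := frobGlue_exists_pow (hkey (res σ) hσ𝔓)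
  refine ⟨ℓ, A, σ, k, j, hℓ, hℓT, hAℓ, hσ, fun x => ?_, fun x => ?_⟩
  · rw [← hres, ← hres, map_pow, hk]
  · rw [← hres, ← hres, map_pow, hj]

/-- **FD-Q.** The Frobenius density theorem (existence form) in the prelude language follows
from the number-field statement. -/
theorem frobGenStatement_of_numberField
    (hN : Fermat.Agent.H7.Frob.FrobGenNumberFieldStatement) :
    Fermat.Agent.H7.Frob.FrobGenStatement := by
  intro F hF g T
  have : FiniteDimensional ℚ F := hF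
  have : Normal ℚ (AlgebraicClosure ℚ) := (Fermat.Agent.H53.isGalois_algebraicClosure_rat).to_normal
  let L₀ : IntermediateField ℚ (AlgebraicClosure ℚ) :=
    IntermediateField.normalClosure ℚ F (AlgebraicClosure ℚ)
  have hFL : F ≤ L₀ := F.le_normalClosure
  have : FiniteDimensional ℚ L₀ := normalClosure.is_finiteDimensional ℚ F (AlgebraicClosure ℚ)
  have : Normal ℚ L₀ := normalClosure.normal ℚ F (AlgebraicClosure ℚ)
  have : IsGalois ℚ L₀ := ⟨⟩
  obtain ⟨ℓ, A, σ, k, j, hℓ, hℓT, hA, hσ, h1, h2⟩ := frobGlue_core hN L₀ g T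
  exact ⟨ℓ, A, σ, k, j, hℓ, hℓT, hA, hσ, fun x hx => h1 ⟨x, hFL hx⟩, fun x hx => h2 ⟨x, hFL hx⟩⟩

end Fermat.Agent.H9
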